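import Fermat.Agent.RT.GammaH.Semisimple
import Fermat.Agent.RT.Glue.Twist
import Fermat.Agent.TwoAdic.Module.Interface

/-!
# Twisting by the inverse of a square root of the nebentypus

`et` is a square root of `χ`; `etaComp et⁻¹ 1 v` is the component at `v` of `et⁻¹`, and the bad
primes of `et⁻¹` are those of `χ`.
-/

set_option autoImplicit false

noncomputable section

namespace Fermat.Agent.TwoAdic.Module

open CongruenceSubgroup UpperHalfPlane ModularFormClass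
open Fermat.Agent.RT.GammaH Fermat.Agent.RT.Glue
open Fermat.Agent.HeckeDuality (eulerWeight)
open scoped MatrixGroups ModularForm

variable {L : ℕ} [NeZero L] {χ et : DirichletCharacter ℂ L}

theorem IsRoot.exists_ne_one (hr : IsRoot χ et) {v : ℕ} (hv : v ∈ badPrimes et⁻¹) :
    ∃ u : (ZMod L)ˣ, ((u : ZMod L).cast : ZMod (L / v)) = 1 ∧ χ u ≠ 1 := by
  obtain ⟨hp, hvL, u, hu, hne⟩ := mem_badPrimes.1 hv
  by_contra hcon
  push Not at hcon
  exact hne (by rw [MulChar.inv_apply_eq_inv', hr.trivialAt v hp hvL hcon u hu, inv_one])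

theorem IsRoot.mem_badPrimes_iff (hr : IsRoot χ et) {v : ℕ} :
    v ∈ badPrimes et⁻¹ ↔ v.Prime ∧ v ∣ L ∧ ¬ IsTrivialAt χ v := by
  constructor
  · intro hv
    obtain ⟨u, hu, hne⟩ := hr.exists_ne_one hv
    exact ⟨(mem_badPrimes.1 hv).1, (mem_badPrimes.1 hv).2.1, fun h => hne (h u hu)⟩
  · rintro ⟨hp, hvL, hnt⟩
    refine mem_badPrimes.2 ⟨hp, hvL, ?_⟩
    by_contra hcon
    push Not at hcon
    refine hnt fun u hu => ?_
    have h := hcon u hu
    rw [MulChar.inv_apply_eq_inv', inv_eq_one] at h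
    rw [← hr.sq, MulChar.pow_apply_coe, h, one_pow]

theorem etaComp_inv_ne_one (hL : Squarefree L) {v : ℕ} (hv : v ∈ badPrimes et⁻¹) :
    etaComp et⁻¹ 1 v ≠ 1 := by
  obtain ⟨hp, hvL, u, hu, hne⟩ := mem_badPrimes.1 hv
  intro h1
  have h2 := etaComp_spec (χ := et⁻¹) (e := 1) hL hp hvL u ((unitsMap_eq_one_iff _ u).2 hu)
  rw [h1, pow_one, MulChar.one_apply (show IsUnit ((u : ZMod L).cast : ZMod v) from
    u.isUnit.map (ZMod.castHom hvL (ZMod v)))] at h2
  exact hne h2.symm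

omit [NeZero L] in
theorem IsRoot.mul_inv_sq (hr : IsRoot χ et) : χ * et⁻¹ ^ 2 = 1 := by
  rw [inv_pow, hr.sq, mul_inv_cancel]

theorem IsRoot.prod_sq (hr : IsRoot χ et) (hL : Squarefree L) :
    χ * (∏ w ∈ badPrimes et⁻¹, etaLift et⁻¹ 1 w) ^ 2 = 1 := by
  rw [prod_etaLift_eq_pow hL, pow_one, hr.mul_inv_sq]

/-- The partial twist at a set of primes where `et` is nontrivial. -/
theorem exists_rootTwist_set (hL : Squarefree L) (hr : IsRoot χ et) {s : Finset ℕ}
    (hs : s ⊆ badPrimes et⁻¹) {f : ℍ → ℂ} {a : ℕ → ℂ} (hf : IsNeb L χ f) (ha : HasCoeff f a) :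
    ∃ F, IsNeb (L * ∏ v ∈ s, v) (χ * (∏ v ∈ s, etaLift et⁻¹ 1 v) ^ 2) F ∧
      HasCoeff F (fun n => (∏ v ∈ s, etaComp et⁻¹ 1 v (n : ZMod v)) * a n) ∧ (F = 0 → f = 0) := by
  induction s using Finset.induction_on with
  | empty =>
    refine ⟨f, ?_, ha.congr fun n => by simp, id⟩
    rw [Finset.prod_empty, Finset.prod_empty, mul_one, one_pow, mul_one]
    exact hf
  | insert v s hvs ih =>
    obtain ⟨hv, hvL, -⟩ := mem_badPrimes.1 (hs (Finset.mem_insert_self v s))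
    obtain ⟨u, hu, hne⟩ := hr.exists_ne_one (hs (Finset.mem_insert_self v s))
    obtain ⟨F, hF, hFa, hF0⟩ := ih ((Finset.subset_insert v s).trans hs)
    have hbad := etaComp_inv_ne_one hL (hs (Finset.mem_insert_self v s))
    set M := L * ∏ w ∈ s, w with hM
    have hprime : ∀ w ∈ s, w.Prime := fun w hw =>
      (mem_badPrimes.1 (hs (Finset.mem_insert_of_mem hw))).1
    have : NeZero M :=
      ⟨mul_ne_zero (NeZero.ne L) (Finset.prod_ne_zero_iff.2 fun w hw => (hprime w hw).ne_zero)⟩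
    have : Fact v.Prime := ⟨hv⟩
    have hLM : L ∣ M := dvd_mul_right _ _
    obtain ⟨G, hG, hGa, -⟩ := exists_twist_prime (hvL.trans hLM) hvL hLM hF hFa hbad
    refine ⟨G, ?_, hGa.congr fun n => ?_, fun h0 => hF0 ?_⟩
    · rw [Finset.prod_insert hvs, Finset.prod_insert hvs, mul_comm v, ← mul_assoc, ← hM, mul_pow,
        mul_comm (etaLift et⁻¹ 1 v ^ 2), ← mul_assoc, etaLift, dif_pos hvL]
      exact hG
    · rw [Finset.prod_insert hvs, mul_assoc]
    · -- nothing dies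
      have hvR : ¬ v ∣ L / v * ∏ w ∈ s, w := by
        refine hv.prime.not_dvd_mul (coprime_div_of_squarefree hL hv hvL) ?_
        rw [hv.prime.dvd_finsetProd_iff]
        rintro ⟨w, hw, hvw⟩
        exact hvs ((Nat.prime_dvd_prime_iff_eq hv (hprime w hw)).1 hvw ▸ hw)
      have hMeq : M = v * (L / v * ∏ w ∈ s, w) := by
        rw [← mul_assoc, Nat.mul_div_cancel' hvL]
      obtain ⟨d, hd1, hdv, hdu⟩ := exists_int_rep hL hv hvL (dvd_mul_right _ _) hvR hu
      refine eq_zero_of_supported hv hMeq hvR hLM hF hFa (fun n hn => ?_) hd1 hdv ?_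
      · have h := (hG.eq_zero_iff (hLM.trans (dvd_mul_right _ _)) hGa).1 h0 n
        refine (mul_eq_zero.1 h).resolve_left ?_
        have hu' : IsUnit (n : ZMod v) :=
          (ZMod.isUnit_iff_coprime _ _).2 ((hv.coprime_iff_not_dvd.2 hn).symm)
        exact (hu'.map _).ne_zero
      · rw [hdu, MulChar.mul_apply, MulChar.pow_apply_coe,
          prod_etaLift_apply hL (((Finset.subset_insert v s).trans hs).trans
            badPrimes_subset) hv hvL u ((unitsMap_eq_one_iff _ u).2 hu), if_neg hvs,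
          one_pow, mul_one]
        exact hne

theorem IsRoot.etaSeq_sq_mul (hr : IsRoot χ et) (hL : Squarefree L) {p : ℕ} (hp : p.Prime)
    (hpL : ¬ p ∣ L) : etaSeq et⁻¹ 1 p ^ 2 * χ (p : ZMod L) = 1 := by
  set u := ZMod.unitOfCoprime p ((Nat.Prime.coprime_iff_not_dvd hp).2 hpL)
  rw [etaSeq_eq hL (u := u) rfl, pow_one, ← ZMod.coe_unitOfCoprime p
    ((Nat.Prime.coprime_iff_not_dvd hp).2 hpL), ← MulChar.pow_apply_coe, ← MulChar.mul_apply,
    mul_comm, hr.mul_inv_sq, MulChar.one_apply_coe]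

theorem IsRoot.seqOp_twist (hr : IsRoot χ et) (hL : Squarefree L) {p : ℕ} (hp : p.Prime)
    (a : ℕ → ℂ) (n : ℕ) :
    seqOp (eulerWeight (twistLevel et⁻¹)) p (fun m => etaSeq et⁻¹ 1 m * a m) n =
      etaSeq et⁻¹ 1 p * (etaSeq et⁻¹ 1 n * seqOp (nebWeight χ) p a n) := by
  by_cases hpL : p ∣ L
  · have h0 : ¬ IsUnit ((p : ℕ) : ZMod L) := fun hu =>
      ((Nat.Prime.coprime_iff_not_dvd hp).1 ((ZMod.isUnit_iff_coprime _ _).1 hu)) hpL
    simp [seqOp, eulerWeight, (prime_dvd_twistLevel_iff hp).2 hpL, nebWeight, χ.map_nonunit h0,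
      etaSeq_mul]
    ring
  · have h1 := hr.etaSeq_sq_mul hL hp hpL
    simp only [seqOp, eulerWeight, nebWeight,
      if_neg (mt (prime_dvd_twistLevel_iff hp).1 hpL), etaSeq_mul]
    split_ifs with hn
    · obtain ⟨m, rfl⟩ := hn
      rw [Nat.mul_div_cancel_left _ hp.pos, etaSeq_mul]
      linear_combination -((p : ℂ) * etaSeq et⁻¹ 1 m * a m) * h1
    · ring

variable {K : Subgroup (ZMod L)ˣ} {χ' : (ZMod L)ˣ →* ℂˣ}

/-- The twist as a cusp form on `Γ₀`. -/
theorem IsRoot.exists_twistForm (hr : IsRoot (toDir χ') et) (hL : Squarefree L) {f : FormH L K}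
    (hf : IsChiForm χ' f) :
    ∃ G : CuspForm (Gamma0 (twistLevel et⁻¹)) 2,
      (∀ n, qCoeff G n = etaSeq et⁻¹ 1 n * qCoeff f n) ∧ (G = 0 → f = 0) := by
  have := neZero_twistLevel (χ := et⁻¹)
  obtain ⟨F, hF, hFa, h0⟩ :=
    exists_rootTwist_set hL hr subset_rfl (isNeb_of_isChiForm hf) (hasCoeff_formH f)
  rw [hr.prod_sq hL] at hF
  have hinv : ∀ γ ∈ Gamma0 (twistLevel et⁻¹), F ∣[(2 : ℤ)] γ = F := by
    intro γ hγ
    rw [hF.neb γ hγ, MulChar.one_apply, one_smul]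
    exact DeligneSerre.isUnit_lowerRight (Newforms.mem_gamma0_iff_dvd.2
      ((Int.natCast_dvd_natCast.2 dvd_twistLevel).trans (Newforms.mem_gamma0_iff_dvd.1 hγ)))
  refine ⟨Newforms.mkCusp F hinv hF.cusp, fun n => Newforms.qCoeff_eq_of_hasSum
    (Newforms.mkCusp F hinv hF.cusp) (c := fun n => etaSeq et⁻¹ 1 n * qCoeff f n)
    (fun τ => hFa τ) n, fun h => DFunLike.coe_injective (h0 ?_)⟩
  simpa using congrArg DFunLike.coe h

/-- The twist kills nothing. -/
theorem IsRoot.formH_eq_zero (hr : IsRoot (toDir χ') et) (hL : Squarefree L) {f : FormH L K}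
    (hf : IsChiForm χ' f) (h : ∀ n, etaSeq et⁻¹ 1 n * qCoeff f n = 0) : f = 0 := by
  have := neZero_twistLevel (χ := et⁻¹)
  obtain ⟨G, hG, h0⟩ := hr.exists_twistForm hL hf
  refine h0 (Newforms.eq_of_forall_qCoeff fun n => ?_)
  rw [hG, h]
  exact ((Newforms.coeffLin (N := twistLevel et⁻¹) (k := 2) n).map_zero).symm

end Fermat.Agent.TwoAdic.Module
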