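import Fermat.Agent.RT.GammaH.Twist
import Fermat.Agent.TwoAdic.Module.Interface
import Mathlib.GroupTheory.SpecificGroups.Cyclic
import Mathlib.Analysis.Complex.Polynomial.Basic

/-!
# Square roots of even characters of squarefree modulus
-/

set_option autoImplicit false

noncomputable section

namespace Fermat.Agent.TwoAdic.Module

open Fermat.Agent.RT.GammaH (toDir toDir_coe unitsMap_eq_one_iff eq_one_of_forall_ker
  exists_component mulChar_prod_apply coprime_div_of_squarefree)

/-- A character of a cyclic group killing the elements of order two is a square. -/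
theorem exists_sq_eq_of_isCyclic {G : Type*} [CommGroup G] [Finite G] [IsCyclic G] (χ : G →* ℂˣ)
    (h : ∀ x : G, x ^ 2 = 1 → χ x = 1) :
    ∃ e : G →* ℂˣ, e ^ 2 = χ ∧ (χ = 1 → e = 1) := by
  rcases eq_or_ne χ 1 with rfl | hne
  · exact ⟨1, MonoidHom.ext fun x => one_pow 2, fun _ => rfl⟩
  obtain ⟨g, hg⟩ := IsCyclic.exists_generator (α := G)
  set N := orderOf g with hN
  obtain ⟨z, hz, hzN⟩ : ∃ z : ℂˣ, z ^ 2 = χ g ∧ z ^ N = 1 := by
    rcases Nat.even_or_odd N with ⟨k, hk⟩ | ⟨k, hk⟩
    · obtain ⟨w, hw⟩ := IsAlgClosed.exists_pow_nat_eq (χ g : ℂ) two_pos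
      have hw0 : w ≠ 0 := fun h0 => (χ g).ne_zero (by rw [← hw, h0, zero_pow two_ne_zero])
      refine ⟨Units.mk0 w hw0, Units.ext (by simpa using hw), ?_⟩
      have hwu : Units.mk0 w hw0 ^ 2 = χ g := Units.ext (by simpa using hw)
      rw [hk, ← two_mul, pow_mul, hwu, ← map_pow]
      refine h _ ?_
      rw [← pow_mul, mul_two, ← hk, hN, pow_orderOf_eq_one]
    · refine ⟨χ g ^ (k + 1), ?_, ?_⟩
      · rw [← pow_mul, show (k + 1) * 2 = N + 1 by omega, pow_succ, ← map_pow, hN,
          pow_orderOf_eq_one, map_one, one_mul]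
      · rw [← pow_mul, mul_comm, pow_mul, ← map_pow, hN, pow_orderOf_eq_one, map_one, one_pow]
  refine ⟨monoidHomOfForallMemZpowers hg (g' := z) (orderOf_dvd_of_pow_eq_one hzN), ?_,
    fun h1 => absurd h1 hne⟩
  refine MonoidHom.ext fun x => ?_
  obtain ⟨n, rfl⟩ := Subgroup.mem_zpowers_iff.1 (hg x)
  simp only [MonoidHom.pow_apply, map_zpow, monoidHomOfForallMemZpowers_apply_gen]
  rw [← hz]

/-- An even character of squarefree modulus has a square root ramified only where it is. -/
theorem exists_isRoot {L : ℕ} [NeZero L] (hL : Squarefree L) (χ : (ZMod L)ˣ →* ℂˣ)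
    (hχ : HasEvenComponents χ) : ∃ et : DirichletCharacter ℂ L, IsRoot (toDir χ) et := by
  classical
  have key : ∀ (v : ℕ) (hvm : v ∈ L.primeFactors), ∃ e : DirichletCharacter ℂ L,
      (∀ u : (ZMod L)ˣ, ZMod.unitsMap (Nat.div_dvd_of_dvd
          (Nat.dvd_of_mem_primeFactors hvm)) u = 1 →
        e u ^ 2 = toDir χ u ∧ (IsTrivialAt (toDir χ) v → e u = 1)) ∧
      ∀ w ∈ L.primeFactors, w ≠ v → IsTrivialAt e w := by
    intro v hvmem
    have hv := Nat.prime_of_mem_primeFactors hvmem
    have hvL := Nat.dvd_of_mem_primeFactors hvmem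
    have : Fact v.Prime := ⟨hv⟩
    obtain ⟨α, hα⟩ := exists_component hvL
      (hv.coprime_iff_not_dvd.2 (coprime_div_of_squarefree hL hv hvL)) (toDir χ)
    have hcop := hv.coprime_iff_not_dvd.2 (coprime_div_of_squarefree hL hv hvL)
    set α' : (ZMod v)ˣ →* ℂˣ := α.toUnitHom with hα'
    -- lifting units of `ℤ / v` to units which are `1` modulo `L / v`
    have hlift : ∀ w : (ZMod v)ˣ, ∃ u : (ZMod L)ˣ, ((u : ZMod L).cast : ZMod (L / v)) = 1 ∧
        ((u : ZMod L).cast : ZMod v) = w := by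
      intro w
      set c : ZMod L ≃+* ZMod v × ZMod (L / v) :=
        (ZMod.ringEquivCongr (Nat.mul_div_cancel' hvL).symm).trans (ZMod.chineseRemainder hcop)
      set z := Units.map c.symm.toRingHom.toMonoidHom (MulEquiv.prodUnits.symm (w, 1))
      have hz : c (z : ZMod L) = ((w : ZMod v), 1) := c.apply_symm_apply _
      refine ⟨z, ?_, ?_⟩
      · refine (RingHom.congr_fun (RingHom.ext_zmod
          (ZMod.castHom (Nat.div_dvd_of_dvd hvL) (ZMod (L / v)))
          ((RingHom.snd _ _).comp c.toRingHom)) _).trans ?_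
        exact congrArg Prod.snd hz
      · refine (RingHom.congr_fun (RingHom.ext_zmod (ZMod.castHom hvL (ZMod v))
          ((RingHom.fst _ _).comp c.toRingHom)) _).trans ?_
        exact congrArg Prod.fst hz
    have hinj : ∀ u : (ZMod L)ˣ, ((u : ZMod L).cast : ZMod (L / v)) = 1 →
        ((u : ZMod L).cast : ZMod v) = 1 → u = 1 := by
      intro u h1 h2
      set c : ZMod L ≃+* ZMod v × ZMod (L / v) :=
        (ZMod.ringEquivCongr (Nat.mul_div_cancel' hvL).symm).trans (ZMod.chineseRemainder hcop)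
      refine Units.ext (c.injective (Prod.ext ?_ ?_))
      · rw [Units.val_one, map_one]
        exact (RingHom.congr_fun (RingHom.ext_zmod ((RingHom.fst _ _).comp c.toRingHom)
          (ZMod.castHom hvL (ZMod v))) _).trans h2
      · rw [Units.val_one, map_one]
        exact (RingHom.congr_fun (RingHom.ext_zmod ((RingHom.snd _ _).comp c.toRingHom)
          (ZMod.castHom (Nat.div_dvd_of_dvd hvL) (ZMod (L / v)))) _).trans h1
    obtain ⟨e, he, he1⟩ := exists_sq_eq_of_isCyclic α' fun w hw => by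
      obtain ⟨u, hu, huw⟩ := hlift w
      refine Units.ext ?_
      rw [hα', MulChar.coe_toUnitHom, ← huw, hα u ((unitsMap_eq_one_iff _ u).2 hu), toDir_coe,
        Units.val_one, hχ v hv hvL u hu (hinj _ ?_ ?_), Units.val_one]
      · rw [Units.val_pow_eq_pow_val]
        exact ((map_pow (ZMod.castHom (Nat.div_dvd_of_dvd hvL) (ZMod (L / v))) _ 2).trans
          (by rw [ZMod.castHom_apply, hu, one_pow]))
      · rw [Units.val_pow_eq_pow_val]
        exact ((map_pow (ZMod.castHom hvL (ZMod v)) _ 2).trans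
          (by rw [ZMod.castHom_apply, huw, ← Units.val_pow_eq_pow_val, hw, Units.val_one]))
    set E : DirichletCharacter ℂ v := MulChar.ofUnitHom e
    refine ⟨DirichletCharacter.changeLevel hvL E, fun u hu => ?_, fun w hw hne u hu => ?_⟩
    · rw [DirichletCharacter.changeLevel_eq_cast_of_dvd, ← hα u hu]
      set z : (ZMod v)ˣ := Units.map (ZMod.castHom hvL (ZMod v)).toMonoidHom u
      have hz : ((u : ZMod L).cast : ZMod v) = z := rfl
      rw [hz, MulChar.ofUnitHom_coe, ← MulChar.coe_toUnitHom α, ← hα', ← Units.val_pow_eq_pow_val,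
        ← MonoidHom.pow_apply, he]
      refine ⟨rfl, fun ht => ?_⟩
      have hα1 : α' = 1 := MonoidHom.ext fun w => by
        obtain ⟨u', hu', huw⟩ := hlift w
        refine Units.ext ?_
        rw [hα', MulChar.coe_toUnitHom, ← huw, hα u' ((unitsMap_eq_one_iff _ u').2 hu'),
          ht u' hu', MonoidHom.one_apply, Units.val_one]
      rw [he1 hα1, MonoidHom.one_apply, Units.val_one]
    · rw [DirichletCharacter.changeLevel_eq_cast_of_dvd]
      have hwL := Nat.dvd_of_mem_primeFactors hw
      have hd : v ∣ L / w := by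
        rw [Nat.dvd_div_iff_mul_dvd hwL]
        exact ((Nat.coprime_primes (Nat.prime_of_mem_primeFactors hw) hv).2 hne).mul_dvd_of_dvd_of_dvd
          hwL hvL
      have h1 := congrArg (ZMod.castHom hd (ZMod v)) hu
      rw [map_one, ← ZMod.castHom_apply (h := Nat.div_dvd_of_dvd hwL), ← RingHom.comp_apply,
        RingHom.ext_zmod ((ZMod.castHom hd (ZMod v)).comp _) (ZMod.castHom hvL (ZMod v)),
        ZMod.castHom_apply] at h1
      rw [h1, map_one]
  choose e he he' using key
  set et : DirichletCharacter ℂ L := ∏ v ∈ L.primeFactors.attach, e v.1 v.2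
  have hval : ∀ (v : ℕ) (hv : v ∈ L.primeFactors) (u : (ZMod L)ˣ),
      ((u : ZMod L).cast : ZMod (L / v)) = 1 → et u = e v hv u := fun v hv u hu => by
    rw [mulChar_prod_apply, Finset.prod_eq_single ⟨v, hv⟩]
    · exact fun w _ hw => he' w.1 w.2 v hv (fun hh => hw (Subtype.ext hh.symm)) u hu
    · exact fun h => absurd (Finset.mem_attach _ _) h
  refine ⟨et, ⟨?_, fun v hv hvL ht u hu => ?_⟩⟩
  · rw [← mul_inv_eq_one]
    refine eq_one_of_forall_ker hL _ fun v hv hvL u hu => ?_
    have hmem : v ∈ L.primeFactors := Nat.mem_primeFactors.2 ⟨hv, hvL, NeZero.ne L⟩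
    rw [MulChar.mul_apply, MulChar.inv_apply_eq_inv', MulChar.pow_apply_coe,
      hval v hmem u ((unitsMap_eq_one_iff _ u).1 hu), (he v hmem u hu).1]
    exact mul_inv_cancel₀ (u.isUnit.map _).ne_zero
  · have hmem : v ∈ L.primeFactors := Nat.mem_primeFactors.2 ⟨hv, hvL, NeZero.ne L⟩
    rw [hval v hmem u hu]
    exact (he v hmem u ((unitsMap_eq_one_iff _ u).2 hu)).2 ht

end Fermat.Agent.TwoAdic.Module
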