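import Fermat.Agent.RT.GammaH.EigenForm
import Fermat.Agent.TwoAdic.Module.Twist.Basic
import Fermat.Agent.TwoAdic.Module.Twist.Root

/-!
# The twisted newform of an eigen homomorphism with even nebentypus
-/

set_option autoImplicit false

noncomputable section

namespace Fermat.Agent.TwoAdic.Module

open CongruenceSubgroup UpperHalfPlane ModularFormClass
open ModularCurve.Period
open Fermat.Agent.RT.GammaH
open Fermat.Agent.RT.Glue (awaySeq mul_awaySeq awaySeq_mul)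
open Fermat.Agent.HeckeDuality (SeqEigen eulerWeight)
open scoped MatrixGroups ModularForm

variable {L : ℕ} [NeZero L] {χ et : DirichletCharacter ℂ L}

/-- An eigenform twisted by `et⁻¹` at all its primes except `v` has nebentypus the square of the
component of `et` at `v`. -/
theorem IsRoot.hasPartialTwist (hr : IsRoot χ et) (hL : Squarefree L) {v : ℕ}
    (hv : v ∈ badPrimes et⁻¹) {f : ℍ → ℂ} {a : ℕ → ℂ} (hf : IsNeb L χ f) (ha : HasCoeff f a)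
    (ha1 : a 1 = 1) {S : Finset ℕ} (hS : ∀ q : ℕ, q.Prime → q ∣ L → q ∈ S)
    (hrec : ∀ ℓ : ℕ, ℓ.Prime → ℓ ∉ S → ∀ n, seqOp (nebWeight χ) ℓ a n = a ℓ * a n)
    {L' : ℕ} (g : CuspForm (Gamma0 L') 2)
    (hg : ∀ ℓ : ℕ, ℓ.Prime → ℓ ∉ S → qCoeff g ℓ = etaSeq et⁻¹ 1 ℓ * a ℓ) :
    HasPartialTwist et S v g := by
  classical
  obtain ⟨hvp, hvL, -⟩ := mem_badPrimes.1 hv
  have : Fact v.Prime := ⟨hvp⟩
  set et' := etaComp et⁻¹ 1 v
  set s := (badPrimes et⁻¹).erase v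
  obtain ⟨F, hF, hFa, hF0⟩ :=
    exists_rootTwist_set hL hr (s := s) (Finset.erase_subset _ _) hf ha
  have hprod : ∏ w ∈ s, w ∣ L / v := by
    have h1 : v * ∏ w ∈ s, w ∣ L := by
      rw [show v * ∏ w ∈ s, w = ∏ w ∈ badPrimes et⁻¹, w from
        Finset.mul_prod_erase _ (fun w : ℕ => w) hv]
      exact prod_badPrimes_dvd
    exact (Nat.dvd_div_iff_mul_dvd hvL).2 h1
  have hdvd : L * ∏ w ∈ s, w ∣ v * (L / v) ^ 2 := by
    rw [pow_two, ← mul_assoc, Nat.mul_div_cancel' hvL]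
    exact Nat.mul_dvd_mul_left L hprod
  have hF' := hF.of_dvd hdvd
  refine ⟨et'⁻¹, F, fun n => awaySeq et⁻¹ 1 v n * a n, fun u hu => ?_,
    ⟨hF'.cusp, fun γ hγ => ?_⟩, hFa, fun h => ?_, fun ℓ hℓ hℓS n => ?_⟩
  · rw [MulChar.inv_apply_eq_inv', etaComp_spec hL hvp hvL u ((unitsMap_eq_one_iff _ u).2 hu),
      pow_one, MulChar.inv_apply_eq_inv', inv_inv]
  · rw [hF'.neb γ hγ]
    congr 1
    have hγL : γ ∈ Gamma0 L := Newforms.mem_gamma0_iff_dvd.2 ((Int.natCast_dvd_natCast.2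
      ((dvd_mul_right L _).trans hdvd)).trans (Newforms.mem_gamma0_iff_dvd.1 hγ))
    have hu : IsUnit ((γ 1 1 : ℤ) : ZMod L) := DeligneSerre.isUnit_lowerRight hγL
    have hlift : etaLift et⁻¹ 1 v ((γ 1 1 : ℤ) : ZMod L) = et' ((γ 1 1 : ℤ) : ZMod v) := by
      rw [etaLift, dif_pos hvL, ← hu.unit_spec, DirichletCharacter.changeLevel_eq_cast_of_dvd,
        hu.unit_spec, ZMod.cast_intCast hvL]
    rw [MulChar.pow_apply' _ two_ne_zero, MulChar.inv_apply_eq_inv', inv_pow]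
    refine eq_inv_of_mul_eq_one_left ?_
    have hprod' := hr.prod_sq hL
    rw [← Finset.mul_prod_erase _ _ hv, mul_pow, mul_left_comm, mul_comm] at hprod'
    rw [← hlift, ← MulChar.pow_apply' _ two_ne_zero, ← MulChar.mul_apply, hprod',
      MulChar.one_apply hu]
  · exact one_ne_zero (ha1.symm.trans ((hf.eq_zero_iff dvd_rfl ha).1 (hF0 h) 1))
  · have hℓL : ¬ ℓ ∣ L := fun h => hℓS (hS ℓ hℓ h)
    have hlink : et' (ℓ : ZMod v) * awaySeq et⁻¹ 1 v ℓ = etaSeq et⁻¹ 1 ℓ := mul_awaySeq hv ℓ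
    have hsq : awaySeq et⁻¹ 1 v ℓ ^ 2 * χ (ℓ : ZMod L) * et' (ℓ : ZMod v) ^ 2 = 1 := by
      have h := hr.etaSeq_sq_mul hL hℓ hℓL
      rw [← mul_awaySeq hv] at h
      linear_combination h
    have het0 : et' (ℓ : ZMod v) ≠ 0 := fun h => by simp [h] at hsq
    have hw : nebWeight (et'⁻¹ ^ 2) ℓ = awaySeq et⁻¹ 1 v ℓ ^ 2 * χ (ℓ : ZMod L) * ℓ := by
      rw [nebWeight, MulChar.pow_apply' _ two_ne_zero, MulChar.inv_apply_eq_inv', inv_pow,
        ← eq_inv_of_mul_eq_one_left hsq]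
    have hb : et'⁻¹ (ℓ : ZMod v) * qCoeff g ℓ = awaySeq et⁻¹ 1 v ℓ * a ℓ := by
      rw [MulChar.inv_apply_eq_inv', hg ℓ hℓ hℓS, ← hlink]
      field_simp
    rw [hb]
    have h := hrec ℓ hℓ hℓS n
    simp only [seqOp, hw]
    simp only [seqOp, nebWeight] at h
    split_ifs at h ⊢ with hn
    · obtain ⟨m, rfl⟩ := hn
      rw [Nat.mul_div_cancel_left _ hℓ.pos] at h ⊢
      rw [awaySeq_mul (ℓ * m), awaySeq_mul ℓ m]
      linear_combination (awaySeq et⁻¹ 1 v ℓ ^ 2 * awaySeq et⁻¹ 1 v m) * h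
    · rw [awaySeq_mul]
      linear_combination (awaySeq et⁻¹ 1 v n * awaySeq et⁻¹ 1 v ℓ) * h

/-- The twist of the normalised eigenform is a normalised eigenform on `Γ₀`. -/
theorem IsRoot.exists_twist_eigenForm {K : Subgroup (ZMod L)ˣ} {χ' : (ZMod L)ˣ →* ℂˣ}
    (hr : IsRoot (toDir χ') et) (hL : Squarefree L) {f : FormH L K} {lam : ℕ → ℂ}
    (hf : IsChiForm χ' f) (h1 : qCoeff f 1 = 1)
    (hseq : SeqEigen (nebWeight (toDir χ')) lam (qCoeff f)) :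
    ∃ G : CuspForm (Gamma0 (twistLevel et⁻¹)) 2, G.IsNormalizedEigenform ∧
      ∀ n, qCoeff G n = etaSeq et⁻¹ 1 n * qCoeff f n := by
  have := neZero_twistLevel (χ := et⁻¹)
  obtain ⟨G, hG, -⟩ := hr.exists_twistForm hL hf
  refine ⟨G, ?_, hG⟩
  have hG1 : qCoeff G 1 = 1 := by rw [hG, h1, etaSeq_one, one_mul]
  have hne : G ≠ 0 := fun h => by
    rw [h] at hG1
    exact zero_ne_one ((((Newforms.coeffLin (N := twistLevel et⁻¹) (k := 2) 1).map_zero).symm).trans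
      hG1)
  have h := HeckeDuality.isNormalizedEigenform_of_eigen hne
    (fun p => etaSeq et⁻¹ 1 p * lam p) fun p hp => by
      refine (Newforms.hOp_eq_smul_iff hp G _).2 fun n => ?_
      simp only [hG]
      refine (hr.seqOp_twist hL hp (qCoeff f) n).trans ?_
      rw [seqOp, hseq p hp n]
      ring
  simpa [hG1] using h.2.1

/-- **The twisted newform of an eigen homomorphism.** -/
theorem isTwistedNewform_of_eigen {K : Subgroup (ZMod L)ˣ} (hL : Squarefree L) (hneg : -1 ∈ K)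
    (S : Finset ℕ) (hS : ∀ v : ℕ, v.Prime → v ∣ L → v ∈ S) (χ : (ZMod L)ˣ →* ℂˣ)
    (hev : HasEvenComponents χ) (a : ℕ → ℂ) {φ : Additive (gammaH L K) →+ ℂ}
    (hφ : φ ∈ parabolicHoms ℂ (gammaH L K) ℂ) (hne : φ ≠ 0)
    (hdia : ∀ u, diamond L K ℂ u φ = (χ u : ℂ) • φ)
    (hT : ∀ (ℓ : ℕ) [Fact ℓ.Prime], ℓ ∉ S → hecke L K ℓ ℂ φ = a ℓ • φ) :
    IsTwistedNewform (toDir χ) S a := by
  obtain ⟨et, hr⟩ := exists_isRoot hL χ hev
  obtain ⟨f, lam, hf, hf1, hseq, -, hla⟩ := exists_eigenForm hneg hφ hne hdia hT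
  obtain ⟨G, hG, hGf⟩ := hr.exists_twist_eigenForm hL hf hf1 hseq
  have := neZero_twistLevel (χ := et⁻¹)
  obtain ⟨M, g, hMN, hg, heq⟩ := Newforms.exists_newform hG
  have hfp : ∀ p, p.Prime → p ∉ S → qCoeff f p = a p := fun p hp hpS => by
    have h := hseq p hp 1
    rw [if_neg hp.not_dvd_one, hf1, one_mul, add_zero, mul_one, hla p hp hpS] at h
    exact h
  have hgp : ∀ ℓ : ℕ, ℓ.Prime → ℓ ∉ S → qCoeff g ℓ = etaSeq et⁻¹ 1 ℓ * a ℓ := fun ℓ hℓ hℓS => by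
    rw [heq ℓ hℓ (mt (prime_dvd_twistLevel_iff hℓ).1 fun h => hℓS (hS ℓ hℓ h)), hGf,
      hfp ℓ hℓ hℓS]
  refine ⟨et, hr, M, g, hg, hMN.trans twistLevel_dvd_sq, fun v hv hvL ht h => ?_,
    fun ℓ hℓ hℓS => ?_, fun v hv hvL hnt => ?_⟩
  · have hb : v ∉ badPrimes et⁻¹ := fun hb => (hr.mem_badPrimes_iff.1 hb).2.2 ht
    have hc : ¬ v ∣ ∏ w ∈ badPrimes et⁻¹, w := by
      rw [hv.prime.dvd_finsetProd_iff]
      rintro ⟨w, hw, hvw⟩
      exact hb ((Nat.prime_dvd_prime_iff_eq hv (mem_badPrimes.1 hw).1).1 hvw ▸ hw)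
    have h2 : v ^ 2 ∣ L :=
      ((hv.coprime_iff_not_dvd.2 hc).pow_left 2).dvd_of_dvd_mul_right (h.trans hMN)
    exact hv.not_isUnit (hL v (by rwa [← pow_two]))
  · set u := ZMod.unitOfCoprime ℓ (hℓ.coprime_iff_not_dvd.2 fun h => hℓS (hS ℓ hℓ h))
    have h0 : et (u : ZMod L) ≠ 0 := (u.isUnit.map et).ne_zero
    rw [hgp ℓ hℓ hℓS, etaSeq_eq hL (u := u) rfl, pow_one, MulChar.inv_apply_eq_inv',
      show ((ℓ : ℕ) : ZMod L) = (u : ZMod L) from rfl]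
    field_simp
  · refine hr.hasPartialTwist hL (hr.mem_badPrimes_iff.2 ⟨hv, hvL, hnt⟩) (isNeb_of_isChiForm hf)
      (hasCoeff_formH f) hf1 hS (fun ℓ hℓ hℓS n => ?_) g fun ℓ hℓ hℓS => ?_
    · rw [hfp ℓ hℓ hℓS, ← hla ℓ hℓ hℓS]
      exact hseq ℓ hℓ n
    · rw [hgp ℓ hℓ hℓS, hfp ℓ hℓ hℓS]

end Fermat.Agent.TwoAdic.Module
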