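import Fermat.Agent.TwoAdic.Module.Twist.Basic
import Fermat.Agent.TwoAdic.Module.Twist.Root

/-!
# Semisimplicity of `T_ℓ` when every nebentypus has a square root
-/

set_option autoImplicit false

noncomputable section

namespace Fermat.Agent.TwoAdic.Module

open CongruenceSubgroup UpperHalfPlane ModularFormClass
open ModularCurve.Period
open Fermat.Agent.RT.GammaH
open Fermat.Agent.Periods.Congruence (per perLin)
open Fermat.Agent.HeckeDuality (eulerWeight coeff_heckeOp)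
open Fermat.Agent.Newforms (hOp)
open scoped MatrixGroups ModularForm ComplexConjugate

variable {L : ℕ} [NeZero L] {K : Subgroup (ZMod L)ˣ} {et : DirichletCharacter ℂ L}

/-- Generalised eigenforms of `T_ℓ` are eigenforms. -/
theorem heckeForm_eq_of_root (hL : Squarefree L) {χ' : (ZMod L)ˣ →* ℂˣ}
    (hr : IsRoot (toDir χ') et) {ℓ : ℕ} [hℓ : Fact ℓ.Prime] (hℓL : ¬ ℓ ∣ L) {f : FormH L K}
    (hf : IsChiForm χ' f) (c : ℂ)
    (h : heckeForm ℓ (heckeForm ℓ f) - (2 * c) • heckeForm ℓ f + c ^ 2 • f = 0) :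
    heckeForm ℓ f = c • f := by
  have := neZero_twistLevel (χ := et⁻¹)
  set N := twistLevel et⁻¹ with hN
  set tw := etaSeq et⁻¹ 1 with htw
  obtain ⟨G, hG, -⟩ := hr.exists_twistForm hL hf
  have h1 : ∀ n, qCoeff (hOp N hℓ.out G) n = tw ℓ * (tw n * qCoeff (heckeForm ℓ f) n) := fun n => by
    rw [coeff_heckeOp, qCoeff_heckeForm hf, htw, ← hr.seqOp_twist hL hℓ.out]
    simp only [seqOp, hG]
    rfl
  have h2 : ∀ n, qCoeff (hOp N hℓ.out (hOp N hℓ.out G)) n =
      tw ℓ ^ 2 * (tw n * qCoeff (heckeForm ℓ (heckeForm ℓ f)) n) := fun n => by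
    rw [coeff_heckeOp, qCoeff_heckeForm (heckeForm_isChiForm hf)]
    have := hr.seqOp_twist hL hℓ.out (qCoeff (heckeForm ℓ f)) n
    simp only [seqOp, ← htw] at this ⊢
    rw [h1, h1]
    split_ifs at this ⊢ <;> linear_combination tw ℓ * this
  have hζ : ∀ n, qCoeff (heckeForm ℓ (heckeForm ℓ f)) n - 2 * c * qCoeff (heckeForm ℓ f) n +
      c ^ 2 * qCoeff f n = 0 := fun n => by
    have := congrArg (fun F : FormH L K => qCoeff F n) (eq_neg_of_add_eq_zero_left h)
    rw [← neg_one_smul ℂ (c ^ 2 • f), smul_smul] at this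
    simp only [qCoeff_formH_sub, qCoeff_formH_smul] at this
    linear_combination this
  have hℓN : ¬ ℓ ∣ N := mt (prime_dvd_twistLevel_iff hℓ.out).1 hℓL
  set T := hOp N hℓ.out with hT
  have hsq : ((T - (tw ℓ * c) • (1 : Module.End ℂ (CuspForm (Gamma0 N) 2))) ^ 2) G = 0 := by
    have e1 : ((T - (tw ℓ * c) • (1 : Module.End ℂ (CuspForm (Gamma0 N) 2))) ^ 2) G =
        T (T G) + ((-2 * (tw ℓ * c)) • T G + (tw ℓ * c) ^ 2 • G) := by
      simp [pow_two, Module.End.mul_apply, map_sub, map_smul, smul_sub, smul_smul]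
      module
    refine Newforms.eq_of_forall_qCoeff fun n => ?_
    rw [e1, Newforms.qCoeff_add, Newforms.qCoeff_add, Newforms.qCoeff_smul, Newforms.qCoeff_smul,
      h2, h1, hG]
    refine Eq.trans ?_ ((Newforms.coeffLin (N := N) (k := 2) n).map_zero).symm
    linear_combination tw ℓ ^ 2 * tw n * hζ n
  have heig := (Newforms.isPetersson_hOp hℓ.out hℓN).eigen_of_genEigen hsq
  have hne : tw ℓ ≠ 0 := fun h0 => by
    have := hr.etaSeq_sq_mul hL hℓ.out hℓL
    rw [← htw, h0] at this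
    simp at this
  refine sub_eq_zero.1 (hr.formH_eq_zero hL ((heckeForm_isChiForm hf).sub (hf.smul c))
    fun n => ?_)
  have := congrArg (fun F : CuspForm (Gamma0 N) 2 => qCoeff F n) heig
  rw [← hT] at this
  simp only [Newforms.qCoeff_smul, h1, hG, ← htw] at this
  rw [qCoeff_formH_sub, qCoeff_formH_smul, ← htw]
  refine mul_left_cancel₀ hne ?_
  linear_combination this

/-- Even components give square roots for all characters trivial on `K`. -/
theorem exists_isRoot_of_even (hL : Squarefree L)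
    (hK : ∀ v : ℕ, v.Prime → v ∣ L → ∀ u : (ZMod L)ˣ,
      ((u : ZMod L).cast : ZMod (L / v)) = 1 → u ^ 2 = 1 → u ∈ K)
    (χ : (ZMod L)ˣ →* ℂˣ) (hχ : ∀ u ∈ K, χ u = 1) :
    ∃ et : DirichletCharacter ℂ L, IsRoot (toDir χ) et :=
  exists_isRoot hL χ fun v hv hvL u h1 h2 => hχ u (hK v hv hvL u h1 h2)

/-- **`T_ℓ` is semisimple on parabolic homomorphisms.** -/
theorem hecke_semisimple' (hL : Squarefree L) (hneg : -1 ∈ K)
    (hroot : ∀ χ : (ZMod L)ˣ →* ℂˣ, (∀ u ∈ K, χ u = 1) →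
      ∃ et : DirichletCharacter ℂ L, IsRoot (toDir χ) et) {ℓ : ℕ} [Fact ℓ.Prime] (hℓ : ¬ ℓ ∣ L) (c : ℂ)
    {φ : Additive (gammaH L K) →+ ℂ} (hφ : φ ∈ parabolicHoms ℂ (gammaH L K) ℂ)
    (h : hecke L K ℓ ℂ (hecke L K ℓ ℂ φ) - (2 * c) • hecke L K ℓ ℂ φ + c ^ 2 • φ = 0) :
    hecke L K ℓ ℂ φ = c • φ := by
  classical
  suffices hpart : ∀ θ : DirichletCharacter ℂ L,
      hecke L K ℓ ℂ (chiPart θ φ) = c • chiPart θ φ by
    rw [← sum_chiPart φ, map_sum, Finset.smul_sum]
    exact Finset.sum_congr rfl fun θ _ => hpart θ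
  intro θ
  have hcomm : ∀ ψ, hecke L K ℓ ℂ (chiPart θ ψ) = chiPart θ (hecke L K ℓ ℂ ψ) := fun ψ => by
    simp only [chiPart, map_smul, map_sum, hecke_diamond]
  have hadd : chiPart θ (hecke L K ℓ ℂ (hecke L K ℓ ℂ φ) - (2 * c) • hecke L K ℓ ℂ φ +
      c ^ 2 • φ) = hecke L K ℓ ℂ (hecke L K ℓ ℂ (chiPart θ φ))
        - (2 * c) • hecke L K ℓ ℂ (chiPart θ φ) + c ^ 2 • chiPart θ φ := by
    rw [hcomm, hcomm]
    simp only [chiPart, map_add, map_sub, map_smul, smul_add, smul_sub, Finset.sum_add_distrib,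
      Finset.sum_sub_distrib, smul_comm (_⁻¹ : ℂ) (2 * c), smul_comm (_⁻¹ : ℂ) (c ^ 2),
      ← Finset.smul_sum]
  rw [h] at hadd
  have hzero : chiPart θ (0 : Additive (gammaH L K) →+ ℂ) = 0 := by simp [chiPart]
  rw [hzero] at hadd
  set ψ := chiPart θ φ with hψ
  by_cases hne : ψ = 0
  · rw [hne, map_zero, smul_zero]
  set χ' : (ZMod L)ˣ →* ℂˣ := θ.toUnitHom with hχ'
  have hcoe : ∀ u, (χ' u : ℂ) = θ u := fun u => by simp [hχ']
  have hdia : ∀ u, diamond L K ℂ u ψ = (χ' u : ℂ) • ψ := fun u => by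
    rw [hcoe, hψ, diamond_chiPart]
  have hK : ∀ u ∈ K, χ' u = 1 := fun u hu => by
    have := (diamond_of_mem ℂ hu ψ).symm.trans (hdia u)
    refine Units.ext ((smul_left_injective ℂ hne ?_).symm)
    rw [Units.val_one]
    simpa using this
  have hψmem : ψ ∈ parabolicHoms ℂ (gammaH L K) ℂ := by
    refine Submodule.smul_mem _ _ (Submodule.sum_mem _ fun u _ => Submodule.smul_mem _ _ ?_)
    obtain ⟨f, g, rfl⟩ := exists_per_add_conjHom hneg hφ
    rw [map_add, diamond_conjHom, ← per_diaForm, ← per_diaForm]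
    exact add_mem (per_mem_parabolicHoms _) (conjHom_mem_parabolicHoms (per_mem_parabolicHoms _))
  obtain ⟨f, g, hfg⟩ := exists_per_add_conjHom hneg hψmem
  obtain ⟨hf, hg⟩ := chiForms_of_diamond (χ' := χ') (f := f) (g := g) (fun u => hfg ▸ hdia u)
  have hsplit : per (heckeForm ℓ (heckeForm ℓ f) - (2 * c) • heckeForm ℓ f + c ^ 2 • f) +
      conjHom (per (heckeForm ℓ (heckeForm ℓ g) - (2 * conj c) • heckeForm ℓ g +
        conj c ^ 2 • g)) = 0 := by
    have hadd' := hadd.symm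
    rw [hfg] at hadd'
    simp only [map_add, hecke_conjHom, ← per_heckeForm] at hadd'
    refine AddMonoidHom.ext fun x => ?_
    have hx := DFunLike.congr_fun hadd' x
    simp only [show ∀ a b : FormH L K, per (a + b) = per a + per b from
        fun a b => map_add (perLin Gamma_le_gammaH) a b, per_sub, per_smul,
      AddMonoidHom.add_apply, AddMonoidHom.sub_apply, conjHom_apply, AddMonoidHom.smul_apply,
      AddMonoidHom.zero_apply, smul_eq_mul, map_add, map_sub, map_mul, map_pow, map_ofNat,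
      Complex.conj_conj] at hx ⊢
    linear_combination hx
  obtain ⟨h1, h2⟩ := Periods.Congruence.per_add_conj_injective Gamma_le_gammaH
    (fun γ => DFunLike.congr_fun hsplit (Additive.ofMul γ))
  obtain ⟨et₁, hr₁⟩ := hroot χ' hK
  obtain ⟨et₂, hr₂⟩ := hroot ((Units.map (starRingEnd ℂ).toMonoidHom).comp χ')
    fun u hu => by simp [hK u hu]
  have e1 := heckeForm_eq_of_root hL hr₁ hℓ hf c h1
  have e2 := heckeForm_eq_of_root hL hr₂ hℓ hg (conj c) h2
  rw [hfg, map_add, hecke_conjHom, ← per_heckeForm, ← per_heckeForm, e1, e2, per_smul, per_smul,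
    conjHom_smul, Complex.conj_conj, smul_add]

end Fermat.Agent.TwoAdic.Module
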